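import Fermat.Agent.LT.T2.H291.OpsSpecT
import Fermat.Agent.LT.T2.H472.LocCont

/-!
# Row LT, tower T2, leaf T2.27.14 `SubMeanLinT291` (helper420), OFF-MAIN

Sphere means and `τ`-twisted circle means are additive and homogeneous on the cusp functions of
the class `IsCuspT 𝔫 τ r`.  UNCONDITIONAL.

The parametrisations `Y`, `k` are continuous (`locCont472`, helper472: a family supported at one
infinite place with continuous complex components is continuous), a cusp function is continuous,
the type `τ` is continuous on the compact group at the place (`IsKType.cont`) and does not vanish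
there (`IsKType.norm_one`); so all the integrands are continuous, hence interval integrable, and
the inner integral of the sphere mean is a continuous function of the outer variable.

Same proof as `T2.07.14` (helper546, `LT/T2/H546/MeanLin.lean`), with `τ` as a parameter.
Mathlib + A0 + `T2/Spec.lean` (v3) + `T2/SpecTau.lean` + `T2/H291/OpsSpecT.lean` +
`T2/H472/LocCont.lean` only.
-/

set_option autoImplicit false

open IsDedekindDomain NumberField MeasureTheory
open Fermat.Agent.LT.H556.A0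
open Fermat.Agent.LT.T2 Fermat.Agent.LT.T2.H291

noncomputable section

namespace Fermat.Agent.LT.T2.H420

variable {K : Type} [Field K] [NumberField K]

/-- `θ ↦ rotZ θ` is continuous. -/
theorem continuous_rotZ420 : Continuous fun α : ℝ => rotZ α := by
  unfold rotZ
  apply continuous_matrix
  intro i j
  fin_cases i <;> fin_cases j <;> simp <;> fun_prop

/-- `θ ↦ rotY θ` is continuous. -/
theorem continuous_rotY420 : Continuous fun β : ℝ => rotY β := by
  unfold rotY
  apply continuous_matrix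
  intro i j
  fin_cases i <;> fin_cases j <;> simp <;> fun_prop

/-- The entries of `rotZ α * rotY β * torus d` are continuous in `(α, β)`. -/
theorem continuous_sphere_entry420 (d : ℝ) (i j : Fin 2) :
    Continuous fun p : ℝ × ℝ => (rotZ p.1 * rotY p.2 * torus d) i j := by
  have h1 : Continuous fun p : ℝ × ℝ => rotZ p.1 := continuous_rotZ420.comp continuous_fst
  have h2 : Continuous fun p : ℝ × ℝ => rotY p.2 := continuous_rotY420.comp continuous_snd
  have h3 : Continuous fun p : ℝ × ℝ => rotZ p.1 * rotY p.2 * torus d :=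
    (h1.matrix_mul h2).matrix_mul continuous_const
  exact h3.matrix_elem i j

/-- The parametrisation of a sphere is continuous. -/
theorem continuous_sphere420 {w : InfinitePlace K} {d : ℝ}
    {Y : ℝ → ℝ → G K} (hY : IsSphereAt w d Y) :
    Continuous fun p : ℝ × ℝ => Y p.1 p.2 := by
  apply H472.locCont472 K w (ℝ × ℝ) (fun p : ℝ × ℝ => Y p.1 p.2) (fun p => (hY p.1 p.2).1)
  intro i j
  have : (fun p : ℝ × ℝ => infComp w (Y p.1 p.2) i j)
      = fun p : ℝ × ℝ => (rotZ p.1 * rotY p.2 * torus d) i j := by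
    funext p
    rw [(hY p.1 p.2).2]
  rw [this]
  exact continuous_sphere_entry420 d i j

/-- The parametrisation of the rotations is continuous. -/
theorem continuous_rot420 {w : InfinitePlace K} {k : ℝ → G K} (hk : IsRotAt w k) :
    Continuous k := by
  apply H472.locCont472 K w ℝ k (fun θ => (hk θ).1)
  intro i j
  have : (fun θ : ℝ => infComp w (k θ) i j) = fun θ : ℝ => (rotY θ) i j := by
    funext θ
    rw [(hk θ).2]
  rw [this]
  exact continuous_rotY420.matrix_elem i j

/-- A real rotation matrix is unitary. -/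
theorem rot_unitary420 (c s : ℝ) (h : c * c + s * s = 1) :
    (!![(c : ℂ), -(s : ℂ); (s : ℂ), (c : ℂ)] : Matrix (Fin 2) (Fin 2) ℂ)
      * (!![(c : ℂ), -(s : ℂ); (s : ℂ), (c : ℂ)] : Matrix (Fin 2) (Fin 2) ℂ).conjTranspose
      = 1 := by
  have hc : (c : ℂ) * (c : ℂ) + (s : ℂ) * (s : ℂ) = 1 := by exact_mod_cast h
  ext i j
  fin_cases i <;> fin_cases j <;>
    simp [Matrix.mul_apply, Fin.sum_univ_two, Matrix.conjTranspose_apply,
      Complex.conj_ofReal] <;>
    first
      | linear_combination hc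
      | ring

/-- A real rotation matrix has determinant `1`. -/
theorem rot_det420 (c s : ℝ) (h : c * c + s * s = 1) :
    (!![(c : ℂ), -(s : ℂ); (s : ℂ), (c : ℂ)] : Matrix (Fin 2) (Fin 2) ℂ).det = 1 := by
  have hc : (c : ℂ) * (c : ℂ) + (s : ℂ) * (s : ℂ) = 1 := by exact_mod_cast h
  rw [Matrix.det_fin_two_of]
  linear_combination hc

theorem cos_sin_half420 (θ : ℝ) :
    Real.cos (θ / 2) * Real.cos (θ / 2) + Real.sin (θ / 2) * Real.sin (θ / 2) = 1 := by
  have h := Real.cos_sq_add_sin_sq (θ / 2)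
  nlinarith [h]

/-- `rotY θ` is unitary. -/
theorem rotY_mul_conjTranspose420 (θ : ℝ) : rotY θ * (rotY θ).conjTranspose = 1 :=
  rot_unitary420 _ _ (cos_sin_half420 θ)

/-- `det (rotY θ) = 1`. -/
theorem det_rotY420 (θ : ℝ) : (rotY θ).det = 1 :=
  rot_det420 _ _ (cos_sin_half420 θ)

/-- The rotations lie in the compact group at the place. -/
theorem isArchCompact_rot420 {w : InfinitePlace K} {k : ℝ → G K} (hk : IsRotAt w k) (θ : ℝ) :
    IsArchCompact w (k θ) := by
  refine ⟨(hk θ).1, ?_, fun _ => ?_⟩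
  · rw [(hk θ).2]
    exact rotY_mul_conjTranspose420 θ
  · rw [(hk θ).2]
    exact det_rotY420 θ

/-- `θ ↦ τ(k_θ)⁻¹` is continuous. -/
theorem continuous_type_rot420 {τ : G K → ℂ} (hτ : IsKType τ) {w : InfinitePlace K}
    {k : ℝ → G K} (hk : IsRotAt w k) : Continuous fun θ : ℝ => (τ (k θ))⁻¹ := by
  have h1 : Continuous fun θ : ℝ => τ (k θ) :=
    (hτ.cont w).comp_continuous (continuous_rot420 hk) (fun θ => isArchCompact_rot420 hk θ)
  refine h1.inv₀ fun θ h0 => ?_
  have h2 := hτ.norm_one w (k θ) (isArchCompact_rot420 hk θ)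
  rw [h0, norm_zero] at h2
  exact zero_ne_one h2

/-- The integrand of the sphere mean is continuous in `(α, β)`. -/
theorem continuous_sphere_integrand420 {Y : ℝ → ℝ → G K}
    (hY : Continuous fun p : ℝ × ℝ => Y p.1 p.2) {φ : G K → ℂ} (hφ : Continuous φ) (g : G K) :
    Continuous (Function.uncurry fun α β : ℝ => φ (g * Y α β) * ((Real.sin β : ℝ) : ℂ)) := by
  have h1 : Continuous fun p : ℝ × ℝ => φ (g * Y p.1 p.2) :=
    hφ.comp (continuous_const.mul hY)
  have h2 : Continuous fun p : ℝ × ℝ => ((Real.sin p.2 : ℝ) : ℂ) := by fun_prop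
  exact h1.mul h2

/-- Additivity and homogeneity of an interval integral of continuous functions. -/
theorem intervalIntegral_lin420 {f₁ f₂ : ℝ → ℂ} (h1 : Continuous f₁) (h2 : Continuous f₂)
    (c : ℂ) (a b : ℝ) :
    (∫ x in a..b, (f₁ x + c * f₂ x)) = (∫ x in a..b, f₁ x) + c * ∫ x in a..b, f₂ x := by
  have h2' : Continuous fun x => c * f₂ x := continuous_const.mul h2
  rw [intervalIntegral.integral_add (h1.intervalIntegrable a b) (h2'.intervalIntegrable a b),
    intervalIntegral.integral_const_mul]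

/-- The sphere mean is additive and homogeneous on the continuous functions. -/
theorem sphereMean_lin420 {Y : ℝ → ℝ → G K} (hY : Continuous fun p : ℝ × ℝ => Y p.1 p.2)
    {φ ψ : G K → ℂ} (hφ : Continuous φ) (hψ : Continuous ψ) (c : ℂ) :
    sphereMean Y (fun g => φ g + c * ψ g) = fun g => sphereMean Y φ g + c * sphereMean Y ψ g := by
  funext g
  have hcφ := continuous_sphere_integrand420 hY hφ g
  have hcψ := continuous_sphere_integrand420 hY hψ g
  obtain ⟨Fφ, hFφ⟩ : ∃ F : ℝ → ℝ → ℂ,
      F = fun α β : ℝ => φ (g * Y α β) * ((Real.sin β : ℝ) : ℂ) := ⟨_, rfl⟩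
  obtain ⟨Fψ, hFψ⟩ : ∃ F : ℝ → ℝ → ℂ,
      F = fun α β : ℝ => ψ (g * Y α β) * ((Real.sin β : ℝ) : ℂ) := ⟨_, rfl⟩
  rw [← hFφ] at hcφ
  rw [← hFψ] at hcψ
  have e1 : sphereMean Y (fun g => φ g + c * ψ g) g
      = ∫ α in (0 : ℝ)..(2 * Real.pi), ∫ β in (0 : ℝ)..Real.pi, (Fφ α β + c * Fψ α β) := by
    unfold sphereMean
    rw [hFφ, hFψ]
    congr 1
    funext α
    congr 1
    funext β
    ring
  have e2 : sphereMean Y φ g = ∫ α in (0 : ℝ)..(2 * Real.pi), ∫ β in (0 : ℝ)..Real.pi, Fφ α β := by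
    unfold sphereMean
    rw [hFφ]
  have e3 : sphereMean Y ψ g = ∫ α in (0 : ℝ)..(2 * Real.pi), ∫ β in (0 : ℝ)..Real.pi, Fψ α β := by
    unfold sphereMean
    rw [hFψ]
  rw [e1, e2, e3]
  have hin : ∀ α : ℝ, (∫ β in (0 : ℝ)..Real.pi, (Fφ α β + c * Fψ α β))
      = (∫ β in (0 : ℝ)..Real.pi, Fφ α β) + c * ∫ β in (0 : ℝ)..Real.pi, Fψ α β := by
    intro α
    exact intervalIntegral_lin420 (hcφ.comp (Continuous.prodMk_right α))
      (hcψ.comp (Continuous.prodMk_right α)) c 0 Real.pi
  have hin' : (fun α : ℝ => ∫ β in (0 : ℝ)..Real.pi, (Fφ α β + c * Fψ α β))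
      = fun α : ℝ => (∫ β in (0 : ℝ)..Real.pi, Fφ α β) + c * ∫ β in (0 : ℝ)..Real.pi, Fψ α β :=
    funext hin
  rw [hin']
  have hoφ : Continuous fun α : ℝ => ∫ β in (0 : ℝ)..Real.pi, Fφ α β :=
    intervalIntegral.continuous_parametric_intervalIntegral_of_continuous' hcφ 0 Real.pi
  have hoψ : Continuous fun α : ℝ => ∫ β in (0 : ℝ)..Real.pi, Fψ α β :=
    intervalIntegral.continuous_parametric_intervalIntegral_of_continuous' hcψ 0 Real.pi
  exact intervalIntegral_lin420 hoφ hoψ c 0 (2 * Real.pi)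

/-- The `τ`-twisted circle mean is additive and homogeneous on the continuous functions. -/
theorem circleMeanT_lin420 {τ : G K → ℂ} {k : ℝ → G K} (a : G K) (hk : Continuous k)
    (hτ : Continuous fun θ : ℝ => (τ (k θ))⁻¹)
    {φ ψ : G K → ℂ} (hφ : Continuous φ) (hψ : Continuous ψ) (c : ℂ) :
    circleMeanT τ k a (fun g => φ g + c * ψ g)
      = fun g => circleMeanT τ k a φ g + c * circleMeanT τ k a ψ g := by
  funext g
  have h1 : Continuous fun θ : ℝ => (τ (k θ))⁻¹ * φ (g * k θ * a) :=
    hτ.mul (hφ.comp ((continuous_const.mul hk).mul continuous_const))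
  have h2 : Continuous fun θ : ℝ => (τ (k θ))⁻¹ * ψ (g * k θ * a) :=
    hτ.mul (hψ.comp ((continuous_const.mul hk).mul continuous_const))
  have e1 : circleMeanT τ k a (fun g => φ g + c * ψ g) g
      = ∫ θ in (0 : ℝ)..(2 * Real.pi),
          ((τ (k θ))⁻¹ * φ (g * k θ * a) + c * ((τ (k θ))⁻¹ * ψ (g * k θ * a))) := by
    unfold circleMeanT
    congr 1
    funext θ
    ring
  rw [e1]
  exact intervalIntegral_lin420 h1 h2 c 0 (2 * Real.pi)

/-- **T2.27.14 `SubMeanLinT291`**, unconditional. -/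
theorem subMeanLinT420 (K : Type) [Field K] [NumberField K] : SubMeanLinT291 K := by
  intro 𝔫 τ hctx R
  refine ⟨?_, ?_⟩
  · intro w _ d _ Y hY φ ψ c hφ hψ
    exact sphereMean_lin420 (continuous_sphere420 hY) hφ.aut.cont hψ.aut.cont c
  · intro w _ t _ k a hk _ φ ψ c hφ hψ
    exact circleMeanT_lin420 a (continuous_rot420 hk) (continuous_type_rot420 hctx.kt hk)
      hφ.aut.cont hψ.aut.cont c

end Fermat.Agent.LT.T2.H420

end
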